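import Fermat.Agent.S12.Abs.Defs

/-!
# S12 / ABS : two facts on `G_ℚ` (no module `T`)
-/

set_option autoImplicit false

noncomputable section

namespace Fermat.Agent.S12

variable {p : ℕ} [Fact p.Prime]

/-- LEAF AR1 (`ℚ(ζ_p)` is ramified at `p`).  Let `ζ` be a primitive `p`-th root of unity in `Qb`.  If every `σ ∈ I_A` had
`cycloExp p σ = 1` in `ZMod p`, then `σ ζ = ζ` for all `σ ∈ I_A` (definition of `ExtCitation.cycloExp` =
`(modularCyclotomicCharacter ..).val`, `modularCyclotomicCharacter.spec`), so by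
`Fermat.Agent.S15.Sel.exists_zpow_of_fixed` (file `S15/Sel/ArVal.lean`; or `S36R.K0L.exists_zpow'`) `v(ζ - 1) = v(p)^n`, `n : ℤ`.
But `v(ζ - 1)^(p-1) = v(p)` (`Fermat.Agent.S44.ELocal.val_zeta_sub_one_pow`, file `S44/ELocal/Roots.lean`), so
`v(p)^(n (p-1)) = v(p)^1` and `n (p - 1) = 1` (`S15.Sel.zpow_valuation_injective`), impossible for `p ≥ 3`.
You may add imports. -/
theorem exists_ine_cyclo_ne_one (hp : 3 ≤ p) (A : ValuationSubring Qb) (hA : A.LiesOverPrime p) :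
    ∃ σ ∈ Ine A, ((ExtCitation.cycloExp p σ : ℕ) : ZMod p) ≠ 1 := by
  sorry

/-- LEAF AR2.  Existence of a Frobenius element `φ` at `A` (`A.IsFrobeniusAt φ ℓ`: look in `Fermat/Agent/Lib/Frobenius*`,
`Lib/FrobDensity`, `GAL`: e.g. grep `IsFrobeniusAt` for an existence theorem), `IsFrobeniusAt.mem_decompositionSubgroup`, and
`φ ζ = ζ ^ ℓ` for `ζ^p = 1` (`Fermat.Agent.S58.frobenius_pow_rootOfUnity` with `b = 1`, file `S58/Quad/Mu.lean`); then
`ζ ^ cycloExp = ζ ^ ℓ` for a primitive `ζ` gives the congruence (`IsPrimitiveRoot.pow_inj` / `ZMod.natCast_eq_natCast_iff`).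
You may add imports. -/
theorem exists_dec_cyclo {ℓ : ℕ} (hℓ : ℓ.Prime) (hℓp : ℓ ≠ p) (A : ValuationSubring Qb)
    (hA : A.LiesOverPrime ℓ) :
    ∃ φ ∈ Dec A, ((ExtCitation.cycloExp p φ : ℕ) : ZMod p) = (ℓ : ZMod p) := by
  sorry

/-- LEAF AR3.  `Fermat.Agent.S13.exists_liesOverPrime_Qbar` (file `S13/Minkowski.lean`). You may add the import. -/
theorem exists_liesOver {ℓ : ℕ} (hℓ : ℓ.Prime) : ∃ A : ValuationSubring Qb, A.LiesOverPrime ℓ := by
  sorry

/-- LEAF AR4 (Minkowski).  `Fermat.Agent.S13.Glue.minkowski_exists` (file `S13/Glue.lean`) verbatim. You may add the import. -/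
theorem minkowski (H : Subgroup GQ) (hnormal : H.Normal)
    (hopen : ∃ s : Finset Qb, ∀ σ : GQ, (∀ x ∈ s, σ x = x) → σ ∈ H)
    (hI : ∀ q : ℕ, q.Prime → ∃ A : ValuationSubring Qb, A.LiesOverPrime q ∧ Ine A ≤ H) :
    H = ⊤ := by
  sorry

end Fermat.Agent.S12
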