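import Fermat.Agent.S12.Abs.Group
import Fermat.Agent.S12.Abs.Arith

/-!
# S12 / ABS : the place `p` (report 357 (3))
-/

set_option autoImplicit false
set_option linter.unusedSectionVars false
set_option linter.unusedVariables false

noncomputable section

namespace Fermat.Agent.S12

open ExtCitation

variable {T : Type} [AddCommGroup T] [DistribMulAction GQ T] {p : ℕ} [Fact p.Prime]
  {jj : AddSubgroup T → Qb} {bad : Finset ℕ} {L : AddSubgroup T}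
  {E1 : ValuationSubring Qb → AddSubgroup T}

/-- LEAF P0 (algebra in a `ℤ[σ]`-module).  `l₁ := σ x - d x`.  Then
`σ (σ x - x) - (σ x - x) = (d-1)² x + ((d-1) l₁ + (σ l₁ - l₁))`  (`smul_sub`, `smul_add`, `smul_comm`-type lemma
`σ • (n • y) = n • σ • y` = `smul_zsmul`/`DistribMulAction.toAddMonoidHom` `map_zsmul`; then `abel`/`module`). -/
theorem sq_formula (σ : GQ) (x : T) (d : ℤ) :
    σ • (σ • x - x) - (σ • x - x) =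
      ((d - 1) ^ 2) • x + ((d - 1) • (σ • x - d • x) + (σ • (σ • x - d • x) - (σ • x - d • x))) := by
  sorry

/-- LEAF P1.  `σ₀, d := cycloExp p σ₀` from `exists_ine_cyclo_ne_one` (`3 ≤ p` from `S.p5`).  For `x ∈ D`: `l₁ = σ₀ x - d x ∈ Lk ≤ E1 A`,
`σ₀ l₁ ∈ Lk`, so by `sq_formula` and `S.E1_sq A hA σ₀ _ n x (hD hx)`: `(d-1)² • x ∈ E1 A`.  `p ∤ (d-1)²` (`Int.Prime.dvd_pow'`/`Prime.dvd_of_dvd_pow`,
`(ZMod.intCast_zmod_eq_zero_iff_dvd ..)`), `p^n • x = 0`: `mem_of_coprime_smul_mem`.  (`(d : ℕ) • x = ((d:ℕ):ℤ) • x`: `natCast_zsmul`.) -/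
theorem le_E1_of_cyclo (S : Setup T p jj bad L E1) {A : ValuationSubring Qb}
    (hA : A.LiesOverPrime p) {Lk D : AddSubgroup T} {n : ℕ} (hLk : Lk ≤ E1 A)
    (hLs : StableBy T ⊤ Lk) (hD : D ≤ tor T (p ^ n))
    (hcy : ∀ σ : GQ, ∀ x ∈ D, σ • x - cycloExp p σ • x ∈ Lk) : D ≤ E1 A := by
  sorry

theorem L_le_E1 (S : Setup T p jj bad L E1) {A : ValuationSubring Qb} (hA : A.LiesOverPrime p) :
    L ≤ E1 A := by
  refine le_E1_of_cyclo S hA (Lk := ⊥) (n := 1) bot_le ?_ ?_ ?_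
  · intro σ _ x hx
    rw [AddSubgroup.mem_bot] at hx ⊢
    rw [hx, smul_zero]
  · rw [pow_one]; exact S.L_le
  · intro σ x hx
    rw [S.L_cyclo σ x hx, sub_self]
    exact AddSubgroup.zero_mem _

theorem E1_inf_tor (S : Setup T p jj bad L E1) {A : ValuationSubring Qb} (hA : A.LiesOverPrime p) :
    E1 A ⊓ tor T p = L := by
  obtain ⟨x, hx, hxE⟩ := S.E1_ne A hA
  exact eq_of_le_of_ne_tor S.base.card S.L_card (le_inf (L_le_E1 S hA) S.L_le) inf_le_right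
    ⟨x, hx, fun h => hxE h.1⟩

/-- LEAF P2 (local splitting).  `C' := E1 A ⊓ pinv T p Lk`.
* `Lk ≤ C'`: `hE`, `le_pinv`.  * stable: `S.E1_stable A hA`, and `p • σ x = σ (p • x) ∈ Lk` (`hLs`).
* `C' ⊓ (T[p] ⊔ Lk) ≤ Lk`: `z = t + l` (`AddSubgroup.mem_sup`), `t = z - l ∈ E1 A ⊓ T[p] = L ≤ Lk` (`E1_inf_tor`).
* `pinv ≤ C' ⊔ (T[p] ⊔ Lk)`: `σ₀, d` as in P1; `x ∈ pinv`; `y := σ₀ (σ₀ x - x) - (σ₀ x - x) ∈ E1 A` (`S.E1_sq`, `pinv_le_tor hcyc.le_tor`) and `y ∈ pinv` (stability);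
  by `sq_formula`, `(d-1)² x = y - ((d-1) l₁ + (σ₀ l₁ - l₁))` with `l₁ = σ₀ x - d x ∈ Ck := T[p] ⊔ Lk` (`hcy`), `σ₀ l₁ - l₁ ∈ Lk` (`hfix`): so `(d-1)² x ∈ C' ⊔ Ck`;
  `p^1 • x ∈ Lk ≤ C' ⊔ Ck`; `mem_of_coprime_smul_mem`. -/
theorem local_split (S : Setup T p jj bad L E1) {A : ValuationSubring Qb} (hA : A.LiesOverPrime p)
    {k : ℕ} (hk : 1 ≤ k) {Lk : AddSubgroup T} (hcyc : IsCyc T Lk (p ^ k)) (hLs : StableBy T ⊤ Lk)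
    (hLL : L ≤ Lk) (hE : Lk ≤ E1 A)
    (hcy : ∀ σ : GQ, ∀ x ∈ pinv T p Lk, σ • x - cycloExp p σ • x ∈ tor T p ⊔ Lk)
    (hfix : ∀ σ : GQ, ∀ x ∈ tor T p ⊔ Lk, σ • x - x ∈ Lk) :
    ∃ C' : AddSubgroup T, Lk ≤ C' ∧ C' ≤ pinv T p Lk ∧ StableBy T (Dec A) C' ∧
      C' ⊓ (tor T p ⊔ Lk) ≤ Lk ∧ pinv T p Lk ≤ C' ⊔ (tor T p ⊔ Lk) := by
  sorry

/-- LEAF P3.  `t ∈ T[p]`, `t ∉ E1 A` (`S.E1_ne`), so `t ∉ LM`; `z` from `exists_basis`.  `f ∈ E1 A ⊓ T[p^M]`: `f = a z + l`, `a z = f - l ∈ E1 A`, so `p^M ∣ a`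
(`dvd_of_smul_mem` with `H = E1 A`), `a z = 0` (`z ∈ T[p^M]`), `f = l ∈ LM`. -/
theorem E1_inf_tor_le (S : Setup T p jj bad L E1) {A : ValuationSubring Qb} (hA : A.LiesOverPrime p)
    {M : ℕ} (hM : 1 ≤ M) {LM : AddSubgroup T} (hcyc : IsCyc T LM (p ^ M)) (hE : LM ≤ E1 A) :
    E1 A ⊓ tor T (p ^ M) ≤ LM := by
  sorry

end Fermat.Agent.S12
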