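import Mathlib
import Fermat.Prelude.Def_FLTPrelim_Ramification
import Fermat.Prelude.Def_EllipticCurve_FrobeniusTrace
import Fermat.Prelude.Def_ExtCitation_AdmissibleExtension_v2

/-!
# S12 (Mazur's endgame for the Frey curve), abstract part: DEFINITIONS AND CONTRACTS

Blueprint: report 357 (helper80).  Everything in `S12/Abs`, `S12/Tree` is about an ABSTRACT
`G_ℚ`-module `T` (in the application `T = E(ℚ̄)`, `E` the Frey curve) and a function
`jj : AddSubgroup T → ℚ̄` (in the application `jj C = j(E/C)`).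

* `tor T n = T[n]`, `gmap T σ C = σ(C)`, `pinv T p C = p⁻¹ C`;
* `IsNbr T p C C'` : `C ≤ C'` of index `p`;  `IsCyc T C n` : `C` cyclic of order `n`;
* `Base`   : `#T[p^m] = p^(2m)`, open stabilisers;
* `Height` : the three properties of `jj` (Galois equivariance, `jj(p⁻¹C) = jj C`, Newton polygon);
* `Tower`  : the output of block TREE at a place `A` over a bad prime `ℓ ≠ p`;
* `Setup`  : everything block ABS needs; `ABS : Setup → ExtVanishingCts p → False`.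
-/

set_option autoImplicit false
set_option linter.unusedSectionVars false

noncomputable section

namespace Fermat.Agent.S12

/-- `ℚ̄`. -/
abbrev Qb : Type := AlgebraicClosure ℚ

/-- `G_ℚ`. -/
abbrev GQ : Type := Qb ≃ₐ[ℚ] Qb

/-- the inertia group at `A`. -/
abbrev Ine (A : ValuationSubring Qb) : Subgroup GQ := A.inertiaSubgroupIn ℚ

/-- the decomposition group at `A`. -/
abbrev Dec (A : ValuationSubring Qb) : Subgroup GQ := A.decompositionSubgroup ℚ

/-- `(a, b)` is `A`-adically close to the cusp `∞` (same as `S15.NearInf`). -/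
def NearInf (A : ValuationSubring Qb) (p : ℕ) (a b : Qb) : Prop :=
  a ∉ A ∧ A.valuation b = A.valuation a ^ p

/-- `(a, b)` is `A`-adically close to the cusp `0` (same as `S15.NearZero`). -/
def NearZero (A : ValuationSubring Qb) (p : ℕ) (a b : Qb) : Prop :=
  a ∉ A ∧ A.valuation b ^ p = A.valuation a

section Abs

variable (T : Type) [AddCommGroup T] [DistribMulAction GQ T]

/-- `T[n]`. -/
def tor (n : ℕ) : AddSubgroup T := (nsmulAddMonoidHom (α := T) n).ker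

omit [DistribMulAction GQ T] in
variable {T} in
theorem mem_tor {n : ℕ} {x : T} : x ∈ tor T n ↔ n • x = 0 := Iff.rfl

/-- `σ(C)`. -/
def gmap (σ : GQ) (C : AddSubgroup T) : AddSubgroup T :=
  C.map (DistribSMul.toAddMonoidHom T σ)

variable {T} in
theorem mem_gmap {σ : GQ} {C : AddSubgroup T} {x : T} : x ∈ gmap T σ C ↔ ∃ y ∈ C, σ • y = x :=
  Iff.rfl

/-- `p⁻¹ C = {x | p x ∈ C}`. -/
def pinv (p : ℕ) (C : AddSubgroup T) : AddSubgroup T := C.comap (nsmulAddMonoidHom (α := T) p)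

omit [DistribMulAction GQ T] in
variable {T} in
theorem mem_pinv {p : ℕ} {C : AddSubgroup T} {x : T} : x ∈ pinv T p C ↔ p • x ∈ C := Iff.rfl

/-- `C ≤ C'` of index `p`. -/
def IsNbr (p : ℕ) (C C' : AddSubgroup T) : Prop := C ≤ C' ∧ Nat.card C' = p * Nat.card C

/-- `C` is cyclic of order `n`. -/
def IsCyc (C : AddSubgroup T) (n : ℕ) : Prop :=
  ∃ x : T, addOrderOf x = n ∧ C = AddSubgroup.zmultiples x

/-- `C` is stable under the subgroup `H` of `G_ℚ`. -/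
def StableBy (H : Subgroup GQ) (C : AddSubgroup T) : Prop := ∀ σ ∈ H, ∀ x ∈ C, σ • x ∈ C

/-- general facts on the torsion of `T`. -/
structure Base (p : ℕ) : Prop where
  card : ∀ m : ℕ, Nat.card (tor T (p ^ m)) = p ^ (2 * m)
  level : ∀ m : ℕ, ∃ s : Finset Qb, ∀ σ : GQ, (∀ z ∈ s, σ z = z) → ∀ x ∈ tor T (p ^ m), σ • x = x

/-- the properties of the height function `jj` (`jj C = j(E/C)`). -/
structure Height (p : ℕ) (jj : AddSubgroup T → Qb) : Prop where
  /-- (J1) -/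
  gal : ∀ (σ : GQ) (C : AddSubgroup T), Finite C → jj (gmap T σ C) = σ (jj C)
  /-- (J3) -/
  pinv : ∀ C : AddSubgroup T, Finite C → jj (pinv T p C) = jj C
  /-- Newton polygon, part 1: a neighbour is `up` or `down`. -/
  np : ∀ (A : ValuationSubring Qb) (C C' : AddSubgroup T), Finite C → jj C ∉ A → IsNbr T p C C' →
    A.valuation (jj C') = A.valuation (jj C) ^ p ∨ A.valuation (jj C') ^ p = A.valuation (jj C)
  /-- Newton polygon, part 2: exactly one neighbour is `up`. -/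
  up : ∀ (A : ValuationSubring Qb) (C : AddSubgroup T), Finite C → jj C ∉ A →
    ∃! C' : AddSubgroup T, IsNbr T p C C' ∧ A.valuation (jj C') = A.valuation (jj C) ^ p

/-- **Output of block TREE** at a place `A` over a bad prime `ℓ ≠ p`: the tower `U m` of the successive
`up` neighbours of `0` (in Tate's picture: `U m = μ_{p^m}`). -/
structure Tower (p : ℕ) (jj : AddSubgroup T → Qb) (A : ValuationSubring Qb)
    (U : ℕ → AddSubgroup T) : Prop where
  zero : U 0 = ⊥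
  cyc : ∀ m, IsCyc T (U m) (p ^ m)
  le : ∀ m, U m ≤ U (m + 1)
  big : ∀ m, jj (U m) ∉ A
  up : ∀ m, A.valuation (jj (U (m + 1))) = A.valuation (jj (U m)) ^ p
  down : ∀ (m : ℕ) (C' : AddSubgroup T), IsNbr T p (U m) C' → C' ≠ U (m + 1) →
    A.valuation (jj C') ^ p = A.valuation (jj (U m))
  stable : ∀ m, StableBy T (Dec A) (U m)
  /-- (i) of report 357: inertia acts trivially on `p⁻¹ U_k / U_k`, `k ≥ 1`. -/
  unram : ∀ k, 1 ≤ k → ∀ σ ∈ Ine A, ∀ x ∈ pinv T p (U k), σ • x - x ∈ U k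
  /-- (ii) of report 357: a cyclic `D ⊇ U_k` of order `p^(k+1)` on which some `φ ∈ D_A` acts, modulo `U_k`,
  by a scalar `c ≠ ±1 mod p`, is `U_(k+1)`. -/
  frob : ∀ (k : ℕ) (D : AddSubgroup T), IsCyc T D (p ^ (k + 1)) → U k ≤ D →
    ∀ φ ∈ Dec A, ∀ c : ℕ, (∀ x ∈ D, φ • x - c • x ∈ U k) →
      ¬ (p : ℤ) ∣ (c : ℤ) - 1 → ¬ (p : ℤ) ∣ (c : ℤ) + 1 → D = U (k + 1)

/-- the hypotheses of block TREE at `A`. -/
structure TreeHyp (p : ℕ) (jj : AddSubgroup T → Qb) (A : ValuationSubring Qb) : Prop where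
  /-- `|j(E)|_A > 1`. -/
  big : jj ⊥ ∉ A
  /-- inertia is unipotent on `T[p^m]` (`S58.LocM.stmtInertMult`). -/
  uni : ∀ σ ∈ Ine A, ∀ m : ℕ, ∀ x ∈ tor T (p ^ m), σ • (σ • x - x) = σ • x - x
  /-- LOC-D: for `φ ∈ D_A`, `φ x - x` or `φ x + x` is fixed by inertia. -/
  locD : ∀ φ ∈ Dec A, ∀ m : ℕ, ∀ x ∈ tor T (p ^ m),
    (∀ τ ∈ Ine A, τ • (φ • x - x) = φ • x - x) ∨ (∀ τ ∈ Ine A, τ • (φ • x + x) = φ • x + x)

/-- **CONTRACT TREE** (owner helper21; proof: report 357 (2)). -/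
def TreeStmt : Prop :=
  ∀ (T : Type) [AddCommGroup T] [DistribMulAction GQ T] (p : ℕ), p.Prime → p ≠ 2 →
    ∀ jj : AddSubgroup T → Qb, Base T p → Height T p jj →
    ∀ (ℓ : ℕ), ℓ.Prime → ℓ ≠ p → ∀ A : ValuationSubring Qb, A.LiesOverPrime ℓ →
      TreeHyp T p jj A → ∃ U : ℕ → AddSubgroup T, Tower T p jj A U

/-- everything block ABS needs. `bad` = the primes of multiplicative reduction different from `p`;
`L` = the cofixed line; `E1 A` = the kernel of reduction at `A ∣ p`. -/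
structure Setup (p : ℕ) [Fact p.Prime] (jj : AddSubgroup T → Qb) (bad : Finset ℕ)
    (L : AddSubgroup T) (E1 : ValuationSubring Qb → AddSubgroup T) : Prop where
  p5 : 5 ≤ p
  base : Base T p
  height : Height T p jj
  two_bad : 2 ∈ bad
  three_bad : 3 ∈ bad
  p_notMem : p ∉ bad
  bad_prime : ∀ ℓ ∈ bad, ℓ.Prime
  /-- good primes. -/
  good : ∀ ℓ : ℕ, ℓ.Prime → ℓ ≠ p → ℓ ∉ bad → ∀ A : ValuationSubring Qb, A.LiesOverPrime ℓ →
    ∀ σ ∈ Ine A, ∀ m : ℕ, ∀ x ∈ tor T (p ^ m), σ • x = x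
  /-- bad primes. -/
  uni : ∀ ℓ ∈ bad, ∀ A : ValuationSubring Qb, A.LiesOverPrime ℓ →
    ∀ σ ∈ Ine A, ∀ m : ℕ, ∀ x ∈ tor T (p ^ m), σ • (σ • x - x) = σ • x - x
  tower : ∀ ℓ ∈ bad, ∀ A : ValuationSubring Qb, A.LiesOverPrime ℓ →
    ∃ U : ℕ → AddSubgroup T, Tower T p jj A U
  /-- at `p`. -/
  E1_stable : ∀ A : ValuationSubring Qb, A.LiesOverPrime p → StableBy T (Dec A) (E1 A)
  E1_sq : ∀ A : ValuationSubring Qb, A.LiesOverPrime p → ∀ σ ∈ Ine A, ∀ m : ℕ,
    ∀ x ∈ tor T (p ^ m), σ • (σ • x - x) - (σ • x - x) ∈ E1 A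
  E1_ne : ∀ A : ValuationSubring Qb, A.LiesOverPrime p → ∃ x ∈ tor T p, x ∉ E1 A
  /-- the line. -/
  L_card : Nat.card L = p
  L_le : L ≤ tor T p
  L_stable : StableBy T ⊤ L
  L_cofixed : ∀ σ : GQ, ∀ x ∈ tor T p, σ • x - x ∈ L
  L_cyclo : ∀ σ : GQ, ∀ x ∈ L, σ • x = ExtCitation.cycloExp p σ • x
  /-- `S15.Key` + place + uniqueness, in terms of `jj`. -/
  key : ∀ C C' : AddSubgroup T, Finite C' → StableBy T ⊤ C → StableBy T ⊤ C' → IsNbr T p C C' →
    (∃ A : ValuationSubring Qb, A.LiesOverPrime 2 ∧ NearZero A p (jj C') (jj C)) →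
    (∃ A : ValuationSubring Qb, A.LiesOverPrime 3 ∧ NearZero A p (jj C') (jj C)) →
    ∀ ℓ : ℕ, ℓ.Prime → ℓ ≠ p → 5 ≤ ℓ → ∀ A : ValuationSubring Qb, A.LiesOverPrime ℓ →
      ¬ NearInf A p (jj C') (jj C)
  /-- a Frobenius relation at one good prime: `n = ℓ₀ + 1 - a ≠ 0`. -/
  count : ∃ (φ : GQ) (a b : ℤ), 1 - a + b ≠ 0 ∧
    ∀ m : ℕ, ∀ x ∈ tor T (p ^ m), φ • φ • x - a • φ • x + b • x = 0

end Abs

end Fermat.Agent.S12
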