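import Fermat.Agent.S12.Abs.Step

/-!
# S12 / ABS : the end of the argument (report 357 (6))
-/

set_option autoImplicit false
set_option linter.unusedSectionVars false
set_option linter.unusedVariables false

noncomputable section

namespace Fermat.Agent.S12

open ExtCitation

variable {T : Type} [AddCommGroup T] [DistribMulAction GQ T] {p : ℕ} [Fact p.Prime]
  {jj : AddSubgroup T → Qb} {bad : Finset ℕ} {L : AddSubgroup T}
  {E1 : ValuationSubring Qb → AddSubgroup T}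

/-- LEAF E1 (UNI; pure group theory).  `M = 2k`, `z` from `exists_basis` (`1 ≤ 2k`).  `g := f - 1`.  `f z ∈ T[p^M]` (`map_nsmul`), `f z = a z + l₀`, so
`g z = (a-1) z + l₀`, `g (g z) = (a-1)² z + ((a-1) l₀ + g l₀)`, hence `(a-1)² z ∈ LM` (`hf2`, `hfL`) and `p^(2k) ∣ (a-1)²` (`dvd_of_smul_mem`), so
`p^k ∣ a - 1` (`pow_mul`, `Int.pow_dvd_pow_iff two_ne_zero`).  For `x ∈ T[p^k]`: `x = p^k x'`, `x' ∈ T[p^(k+k)]` (`exists_pow_nsmul_eq`), `x' = b z + l'`,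
`g x' = b (a-1) z + (b l₀ + g l')`, `g x = p^k g x' = (b (a-1) p^k) z + p^k (b l₀ + g l')` and `p^(2k) ∣ (a-1) p^k` kills `z`. -/
theorem uni_half (hc : ∀ m : ℕ, Nat.card (tor T (p ^ m)) = p ^ (2 * m)) {k : ℕ} (hk : 1 ≤ k)
    {LM : AddSubgroup T} (hL : IsCyc T LM (p ^ (2 * k))) {t : T} (ht : t ∈ tor T p) (htL : t ∉ LM)
    (f : T →+ T) (hfL : ∀ x ∈ LM, f x ∈ LM)
    (hf2 : ∀ x ∈ tor T (p ^ (2 * k)), f (f x - x) - (f x - x) ∈ LM) :
    ∀ x ∈ tor T (p ^ k), ∃ l ∈ LM, f x - x = p ^ k • l := by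
  sorry

/-- the subgroup of the `σ` acting trivially on `T[p^k] / p^k LM`. -/
def cofix (k : ℕ) (LM : AddSubgroup T) (hLs : StableBy T ⊤ LM) : Subgroup GQ where
  carrier := {σ | ∀ x ∈ tor T (p ^ k), ∃ l ∈ LM, σ • x - x = p ^ k • l}
  mul_mem' := by
    sorry
  one_mem' := fun x _ => ⟨0, LM.zero_mem, by simp⟩
  inv_mem' := by
    sorry

/-- LEAF E3 (as `S13.Glue.cofixer_normal`): `(τ σ τ⁻¹) x - x = τ (σ (τ⁻¹ x) - τ⁻¹ x)`, `τ⁻¹ x ∈ T[p^k]`, `τ (p^k l) = p^k (τ l)`. -/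
theorem cofix_normal (k : ℕ) (LM : AddSubgroup T) (hLs : StableBy T ⊤ LM) :
    (cofix (p := p) k LM hLs).Normal := by
  sorry

/-- LEAF E4.  There is `t ∈ T[p]`, `t ∉ LM`: `A ∣ p` (`exists_liesOver`), `S.E1_ne A hA`, `hS.e1 A hA`. -/
theorem exists_not_mem (S : Setup T p jj bad L E1) {M : ℕ} {LM : AddSubgroup T}
    (hS : Stage p jj bad L E1 M LM) : ∃ t ∈ tor T p, t ∉ LM := by
  obtain ⟨A, hA⟩ := exists_liesOver (Fact.out : p.Prime)
  obtain ⟨t, ht, htE⟩ := S.E1_ne A hA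
  exact ⟨t, ht, fun h => htE (hS.e1 A hA h)⟩

/-- LEAF E5.  `Ine A ≤ cofix` for ONE place `A` over every prime `q` (`exists_liesOver`); `σ ∈ Ine A`, `f := DistribSMul.toAddMonoidHom T σ`, `uni_half`:
`hf2`: * `q ≠ p`, `q ∉ bad`: `S.good` gives `σ x = x`, so the element is `0`; * `q ∈ bad`: `S.uni` gives `0`;
* `q = p`: `S.E1_sq` and the element lies in `T[p^(2k)]`, so in `E1 A ⊓ T[p^(2k)] ≤ LM` (`E1_inf_tor_le`, `hS.e1`). -/
theorem ine_le_cofix (S : Setup T p jj bad L E1) {k : ℕ} (hk : 1 ≤ k) {LM : AddSubgroup T}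
    (hS : Stage p jj bad L E1 (2 * k) LM) (q : ℕ) (hq : q.Prime) :
    ∃ A : ValuationSubring Qb, A.LiesOverPrime q ∧ Ine A ≤ cofix (p := p) k LM hS.stable := by
  sorry

theorem cofix_eq_top (S : Setup T p jj bad L E1) {k : ℕ} (hk : 1 ≤ k) {LM : AddSubgroup T}
    (hS : Stage p jj bad L E1 (2 * k) LM) : cofix (p := p) k LM hS.stable = ⊤ := by
  obtain ⟨s, hs⟩ := S.base.level k
  refine minkowski _ (cofix_normal k LM hS.stable) ⟨s, fun σ hσ x hx => ?_⟩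
    (fun q hq => ine_le_cofix S hk hS q hq)
  exact ⟨0, LM.zero_mem, by rw [hs σ hσ x hx]; simp⟩

/-- LEAF E6 (COUNT).  `t ∈ T[p]`, `t ∉ LM` (`exists_not_mem`); `z ∈ T[p^k]` with `p^(k-1) z = t` (`exists_pow_nsmul_eq`, `m = 1`, `j = k - 1`).
By `cofix_eq_top`: `φ z = z + l`, `l ∈ LM` (`l = p^k l₀`).  `φ φ z = z + l + φ l`.  The relation `hrel k z` gives
`(1 - a + b) z = -(l + φ l - a l) ∈ LM`; `dvd_of_smul_mem` (`M = k`, `H = LM`). -/
theorem pow_dvd_count (S : Setup T p jj bad L E1) {k : ℕ} (hk : 1 ≤ k) {LM : AddSubgroup T}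
    (hS : Stage p jj bad L E1 (2 * k) LM) {φ : GQ} {a b : ℤ}
    (hrel : ∀ m : ℕ, ∀ x ∈ tor T (p ^ m), φ • φ • x - a • φ • x + b • x = 0) :
    (p : ℤ) ^ k ∣ 1 - a + b := by
  sorry

/-- **ABS**: the abstract form of Mazur's endgame. -/
theorem false_of_setup (S : Setup T p jj bad L E1) (h14 : ExtVanishingCts p) : False := by
  obtain ⟨φ, a, b, hn, hrel⟩ := S.count
  set n : ℤ := 1 - a + b with hn'
  set k : ℕ := n.natAbs + 1 with hk'
  have hk : 1 ≤ k := Nat.succ_le_succ (Nat.zero_le _)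
  obtain ⟨LM, hS⟩ := exists_stage S h14 (2 * k - 1)
  have h2k : 2 * k - 1 + 1 = 2 * k := by omega
  rw [h2k] at hS
  have hdvd := pow_dvd_count S hk hS hrel
  have h1 : (p : ℤ) ^ k ≤ |n| := by
    have := Int.le_of_dvd (abs_pos.2 hn) ((dvd_abs _ _).2 hdvd)
    exact this
  have h2 : (k : ℤ) < (p : ℤ) ^ k := by
    have := Nat.lt_pow_self (Fact.out : p.Prime).one_lt (n := k)
    exact_mod_cast this
  have h3 : |n| = (n.natAbs : ℤ) := Int.abs_eq_natAbs n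
  have h4 : (k : ℤ) = (n.natAbs : ℤ) + 1 := by rw [hk']; push_cast; ring
  omega

end Fermat.Agent.S12
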