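import Fermat.Agent.S12.Abs.Defs

/-!
# S12 / ABS : pure group theory (no Galois action)

`T` an abelian group, `p` a prime, `hc : ∀ m, #T[p^m] = p^(2m)`.
All the statements are elementary facts on finite abelian `p`-groups.  PURE MATHLIB.
-/

set_option autoImplicit false
set_option linter.unusedSectionVars false
set_option linter.unusedVariables false

noncomputable section

namespace Fermat.Agent.S12

variable {T : Type} [AddCommGroup T] {p : ℕ} [Fact p.Prime]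

/-! ### torsion -/

theorem tor_mono {m n : ℕ} (h : m ∣ n) : tor T m ≤ tor T n := by
  intro x hx
  obtain ⟨c, rfl⟩ := h
  rw [mem_tor] at hx ⊢
  rw [mul_comm, mul_smul, hx, smul_zero]

theorem tor_pow_mono {m n : ℕ} (h : m ≤ n) : tor T (p ^ m) ≤ tor T (p ^ n) :=
  tor_mono (pow_dvd_pow p h)

theorem tor_pow_one : tor T (p ^ 1) = tor T p := by rw [pow_one]

/-- LEAF G1.  `Nat.finite_of_card_ne_zero`. -/
theorem finite_tor (hc : ∀ m : ℕ, Nat.card (tor T (p ^ m)) = p ^ (2 * m)) (m : ℕ) :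
    Finite (tor T (p ^ m)) := by
  apply Nat.finite_of_card_ne_zero
  rw [hc m]
  exact pow_ne_zero _ (Fact.out : p.Prime).ne_zero

/-- LEAF G2 (divisibility).  The map `p • · : T[p^(m+1)] → T[p^m]` has kernel `T[p]` (`= T[p^1]`, order `p²`), so its
image has `p^(2m+2)/p² = p^(2m) = #T[p^m]` elements: it is surjective.
(`AddSubgroup.card_eq_card_quotient_mul_card_addSubgroup` / `AddMonoidHom` first isomorphism theorem
`QuotientAddGroup.quotientKerEquivRange`, `Nat.card_congr`, then `AddSubgroup.eq_of_le_of_card_ge` or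
`Set.eq_of_subset_of_ncard_le`.) -/
theorem exists_nsmul_eq (hc : ∀ m : ℕ, Nat.card (tor T (p ^ m)) = p ^ (2 * m)) {m : ℕ} {x : T}
    (hx : x ∈ tor T (p ^ m)) : ∃ y ∈ tor T (p ^ (m + 1)), p • y = x := by
  sorry

/-- induction on `j` from `exists_nsmul_eq`. -/
theorem exists_pow_nsmul_eq (hc : ∀ m : ℕ, Nat.card (tor T (p ^ m)) = p ^ (2 * m)) {m : ℕ} (j : ℕ)
    {x : T} (hx : x ∈ tor T (p ^ m)) : ∃ y ∈ tor T (p ^ (m + j)), p ^ j • y = x := by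
  induction j with
  | zero => exact ⟨x, hx, by simp⟩
  | succ j ih =>
    obtain ⟨y, hy, hyx⟩ := ih
    obtain ⟨z, hz, hzy⟩ := exists_nsmul_eq hc hy
    exact ⟨z, hz, by rw [pow_succ, mul_smul, hzy, hyx]⟩

/-- LEAF G3.  `p • · : p⁻¹C → C` is surjective (`exists_nsmul_eq`) with kernel `T[p]` of order `p²`. -/
theorem card_pinv (hc : ∀ m : ℕ, Nat.card (tor T (p ^ m)) = p ^ (2 * m)) {C : AddSubgroup T} {m : ℕ}
    (hC : C ≤ tor T (p ^ m)) : Nat.card (pinv T p C) = p ^ 2 * Nat.card C := by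
  sorry

theorem le_pinv_of_tor {C : AddSubgroup T} : tor T p ≤ pinv T p C := by
  intro x hx
  rw [mem_pinv, mem_tor.1 hx]
  exact C.zero_mem

theorem le_pinv (C : AddSubgroup T) : C ≤ pinv T p C := fun x hx => C.nsmul_mem hx p

theorem pinv_le_tor {C : AddSubgroup T} {m : ℕ} (hC : C ≤ tor T (p ^ m)) :
    pinv T p C ≤ tor T (p ^ (m + 1)) := by
  intro x hx
  rw [mem_tor, pow_succ, mul_smul]
  exact hC hx

/-! ### cyclic groups -/

theorem IsCyc.card {C : AddSubgroup T} {n : ℕ} (h : IsCyc T C n) : Nat.card C = n := by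
  obtain ⟨x, hx, rfl⟩ := h
  rw [Nat.card_zmultiples, hx]

theorem IsCyc.finite {C : AddSubgroup T} {k : ℕ} (h : IsCyc T C (p ^ k)) : Finite C := by
  apply Nat.finite_of_card_ne_zero
  rw [h.card]
  exact pow_ne_zero _ (Fact.out : p.Prime).ne_zero

theorem IsCyc.le_tor {C : AddSubgroup T} {n : ℕ} (h : IsCyc T C n) : C ≤ tor T n := by
  obtain ⟨x, hx, rfl⟩ := h
  rw [AddSubgroup.zmultiples_le]
  rw [mem_tor, ← hx]
  exact addOrderOf_nsmul_eq_zero x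

theorem isCyc_bot : IsCyc T (⊥ : AddSubgroup T) (p ^ 0) :=
  ⟨0, by simp, by simp⟩

/-- LEAF G4.  `C = ⟨w⟩`, `w` of order `p^k`, `k ≥ 1`: `C ∩ T[p] = ⟨p^(k-1) w⟩` has order `p`; `L ≤ C ∩ T[p]` has the same
(finite) cardinality. -/
theorem IsCyc.inf_tor_eq {C L : AddSubgroup T} {k : ℕ} (h : IsCyc T C (p ^ k)) (hk : 1 ≤ k)
    (hLC : L ≤ C) (hLp : L ≤ tor T p) (hL : Nat.card L = p) : C ⊓ tor T p = L := by
  sorry

/-- LEAF G5.  `C = ⟨w⟩`, `y = a w`; `p^(k-1) a w = 0` ⟹ `p^k ∣ p^(k-1) a` ⟹ `p ∣ a`. (`k ≥ 1`.) -/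
theorem IsCyc.exists_smul_of_pow_smul {C : AddSubgroup T} {k : ℕ} (h : IsCyc T C (p ^ k)) (hk : 1 ≤ k)
    {y : T} (hy : y ∈ C) (h0 : p ^ (k - 1) • y = 0) : ∃ l ∈ C, y = p • l := by
  sorry

/-- LEAF G6.  `C = ⟨w⟩`, `y = a w` with `p ∤ a` (otherwise `y = p • ((a/p) w)`), so `y` has order `p^k`
(`addOrderOf_nsmul_coprime` or `Nat.Coprime` + `addOrderOf_nsmul'`). -/
theorem IsCyc.addOrderOf_of_not_smul {C : AddSubgroup T} {k : ℕ} (h : IsCyc T C (p ^ k))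
    {y : T} (hy : y ∈ C) (h0 : ∀ l ∈ C, y ≠ p • l) : addOrderOf y = p ^ k := by
  sorry

/-- LEAF G7.  `x ∈ D \ Lk` (exists: cardinalities).  If `p x = p l`, `l ∈ Lk`, then `x - l ∈ D` is killed by `p`, so `x - l ∈ Lk`:
contradiction.  So `p x ∈ Lk` has order `p^k` (G6), `x` has order `p^(k+1)` (`addOrderOf_nsmul_eq...`: `p^(k+1) x = 0` and
`p^k x = p^(k-1)(p x) ≠ 0`; `addOrderOf_eq_prime_pow`), and `⟨x⟩ ≤ D` has the same cardinality. -/
theorem isCyc_of_nbr {Lk D : AddSubgroup T} {k : ℕ} (hk : 1 ≤ k) (hL : IsCyc T Lk (p ^ k))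
    (hN : IsNbr T p Lk D) (hDp : D ≤ pinv T p Lk) (hD : ∀ t ∈ D, p • t = 0 → t ∈ Lk) :
    IsCyc T D (p ^ (k + 1)) := by
  sorry

/-- LEAF G8.  `D = ⟨x⟩` of order `p^(k+1)`, `Lk ≤ D` of order `p^k`: `Lk = ⟨p x⟩` (unique subgroup of that order in a cyclic
group), so `n x ∈ Lk ↔ p ∣ n`; in particular `p • y ∈ Lk` for `y ∈ D`. -/
theorem IsCyc.le_pinv_of_le {Lk D : AddSubgroup T} {k : ℕ} (hD : IsCyc T D (p ^ (k + 1)))
    (hL : IsCyc T Lk (p ^ k)) (hle : Lk ≤ D) : D ≤ pinv T p Lk := by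
  sorry

theorem IsCyc.isNbr {Lk D : AddSubgroup T} {k : ℕ} (hD : IsCyc T D (p ^ (k + 1)))
    (hL : IsCyc T Lk (p ^ k)) (hle : Lk ≤ D) : IsNbr T p Lk D :=
  ⟨hle, by rw [hD.card, hL.card, pow_succ, mul_comm]⟩

/-- LEAF G10.  Bezout: `u c + v p^n = 1` in `ℤ` (`Int.isCoprime_iff_gcd_eq_one`, `IsCoprime.pow_right`,
`(Nat.prime_iff_prime_int.1 hp).coprime_iff_not_dvd`), `x = u • (c • x) + v • (p^n • x)`. -/
theorem mem_of_coprime_smul_mem {H : AddSubgroup T} {x : T} {c : ℤ} {n : ℕ} (hc : ¬ (p : ℤ) ∣ c)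
    (h1 : c • x ∈ H) (h2 : p ^ n • x ∈ H) : x ∈ H := by
  sorry

/-- LEAF G9a.  Suppose `p^M ∤ a`; write `a = p^i u`, `i < M`, `p ∤ u` (`Int`: `multiplicity`/`padicValInt`, or strong induction on `M`:
if `p ∤ a` then `p^(M-1) • (a • z) = a • t ∈ H` and `mem_of_coprime_smul_mem` (with `n = 1`) gives `t ∈ H`; if `a = p a'`, apply the
statement for `M - 1` and `z' = p • z`).  Then `p^(M-1-i) • (a • z) = u • t ∈ H`, so `t ∈ H`: contradiction. -/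
theorem dvd_of_smul_mem {z t : T} {M : ℕ} (hM : 1 ≤ M) (hz : p ^ (M - 1) • z = t) (ht : p • t = 0)
    {H : AddSubgroup T} (htH : t ∉ H) {a : ℤ} (ha : a • z ∈ H) : (p : ℤ) ^ M ∣ a := by
  sorry

/-- LEAF G9b (BASIS).  `LM = ⟨w⟩` cyclic of order `p^M`, `M ≥ 1`, `t ∈ T[p]`, `t ∉ LM`.  Take `z ∈ T[p^M]` with
`p^(M-1) z = t` (`exists_pow_nsmul_eq` with `m = 1`, `j = M - 1`).  By `dvd_of_smul_mem` (`H = LM`) the map
`ZMod (p^M) × LM → T[p^M]`, `(a, l) ↦ a.val • z + l` is injective; both sides are finite of cardinality `p^(2M)`, so it is surjective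
(`Finite.injective_iff_surjective_of_equiv` / `Nat.bijective_iff_injective_and_card`). -/
theorem exists_basis (hc : ∀ m : ℕ, Nat.card (tor T (p ^ m)) = p ^ (2 * m)) {LM : AddSubgroup T}
    {M : ℕ} (hM : 1 ≤ M) (hL : IsCyc T LM (p ^ M)) {t : T} (ht : t ∈ tor T p) (htL : t ∉ LM) :
    ∃ z ∈ tor T (p ^ M), p ^ (M - 1) • z = t ∧
      ∀ x ∈ tor T (p ^ M), ∃ a : ℤ, ∃ l ∈ LM, x = a • z + l := by
  sorry

/-- LEAF G11.  A subgroup `H` with `L ≤ H ≤ T[p]`, `#L = p`, `#T[p] = p²`, `H ≠ T[p]` is `L` (Lagrange: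
`#H ∣ p²`, `p ∣ #H`... or: `#H ∈ {p, p²}` by `Nat.dvd_prime_pow`). -/
theorem eq_of_le_of_ne_tor (hc : ∀ m : ℕ, Nat.card (tor T (p ^ m)) = p ^ (2 * m))
    {L H : AddSubgroup T} (hL : Nat.card L = p) (hLH : L ≤ H) (hH : H ≤ tor T p)
    (hne : ∃ x ∈ tor T p, x ∉ H) : H = L := by
  sorry

/-- LEAF G12.  `#(T[p] ⊔ Lk) = #T[p] #Lk / #(T[p] ⊓ Lk) = p² p^k / p` (`IsCyc.inf_tor_eq`;
`AddSubgroup.card_mul_eq_card_addSubgroup_mul_card_quotient`-type product formula: `Nat.card (H ⊔ K) * Nat.card (H ⊓ K) =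
Nat.card H * Nat.card K` for subgroups of a commutative group: use the surjection `H × K → H ⊔ K` with kernel `≃ H ⊓ K`). -/
theorem card_tor_sup (hc : ∀ m : ℕ, Nat.card (tor T (p ^ m)) = p ^ (2 * m)) {Lk L : AddSubgroup T}
    {k : ℕ} (hk : 1 ≤ k) (hL : IsCyc T Lk (p ^ k)) (hLC : L ≤ Lk) (hLp : L ≤ tor T p)
    (hLc : Nat.card L = p) : Nat.card (tor T p ⊔ Lk : AddSubgroup T) = p * Nat.card Lk := by
  sorry

/-- LEAF G14.  Product formula `#(D ⊔ C) #(D ⊓ C) = #D #C` (see G12) with `D ⊔ C = V`, `D ⊓ C = Lk`; cancel. -/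
theorem card_of_compl {Lk C V D : AddSubgroup T} (hfin : Finite V) (hLD : Lk ≤ D) (hLC : Lk ≤ C)
    (hDV : D ≤ V) (hCV : C ≤ V) (hinf : D ⊓ C ≤ Lk) (hsup : V ≤ D ⊔ C)
    (hcC : Nat.card C = p * Nat.card Lk) (hcV : Nat.card V = p ^ 2 * Nat.card Lk) :
    Nat.card D = p * Nat.card Lk := by
  sorry

/-- LEAF G13.  `z ∈ p⁻¹Lk`, `p^k z = 0`: `p z ∈ Lk` is killed by `p^(k-1)`, so `p z = p l` (G5), `z - l ∈ T[p]`. -/
theorem mem_tor_sup_of_pow_smul {Lk : AddSubgroup T} {k : ℕ} (hk : 1 ≤ k) (hL : IsCyc T Lk (p ^ k))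
    {z : T} (hz : z ∈ pinv T p Lk) (h0 : p ^ k • z = 0) : z ∈ tor T p ⊔ Lk := by
  have h1 : p ^ (k - 1) • (p • z) = 0 := by
    rw [← mul_smul, ← pow_succ, Nat.sub_add_cancel hk, h0]
  obtain ⟨l, hl, hzl⟩ := hL.exists_smul_of_pow_smul hk (y := p • z) hz h1
  have h2 : z - l ∈ tor T p := by rw [mem_tor, smul_sub, hzl, sub_self]
  have : z = (z - l) + l := by abel
  rw [this]
  exact AddSubgroup.add_mem_sup h2 hl

end Fermat.Agent.S12
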