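import Fermat.Agent.S12.Abs.Group

/-!
# S12 / ABS : `ExtVanishingCts` for a subquotient `Vk / Lk` of `T`
-/

set_option autoImplicit false
set_option linter.unusedSectionVars false
set_option linter.unusedVariables false

noncomputable section

namespace Fermat.Agent.S12

variable {T : Type} [AddCommGroup T] [DistribMulAction GQ T] {p : ℕ} [Fact p.Prime]

/-- LEAF S14SUB (boilerplate, ~250 lines).  Apply `h14` to `V := ↥Vk ⧸ (Lk.addSubgroupOf Vk)` (a `Type`), `C :=` the image of `Ck`.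
Instances: `AddCommGroup` (quotient); `Module (ZMod p) V := AddCommGroup.zmodModule` (`p • v = 0` by `hpV`);
`DistribMulAction GQ ↥Vk` (restriction, `hVs`), then on the quotient by `QuotientAddGroup.map` (`hLs`);
`SMulCommClass GQ (ZMod p) V`: a `ZMod p`-scalar is a natural number multiple (`ZMod.natCast_zmod_surjective`/`ZMod.natCast_val`,
`Nat.cast_smul_eq_nsmul`), and `σ • (n • v) = n • σ • v`.
Submodules of `V` = additive subgroups (`AddSubgroup.toZModSubmodule`), they correspond to the subgroups between `Lk` and `Vk`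
(`D := (C'.comap (QuotientAddGroup.mk' _)).map Vk.subtype`).
Fields of `IsAdmissibleExtensionCts`: `stable` `hCs`, `fixed_sub` `hfix`, `cyclo_quot` `hcyc` (`(c : ZMod p) • v = c • v`), `card_sub`,
`card_total` from `hcC`, `hcV` (`AddSubgroup.card_eq_card_quotient_mul_card_addSubgroup`, cancel `Nat.card Lk ≠ 0`),
`unramified_outside` `hunr`, `locally_split` `hloc` (`IsCompl` from `⊓ ≤`, `≤ ⊔`), `open_kernel`: the set is a subgroup of `GQ` containing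
the fixing subgroup of `ℚ(s)`, which is open (`IntermediateField.fixingSubgroup_isOpen`, `Subgroup.isOpen_mono`; see the proof of
`minkowski_exists` in `S13/Glue.lean` for `ℚ(s)`). -/
theorem s14_sub (h14 : ExtCitation.ExtVanishingCts p) (Lk Ck Vk : AddSubgroup T)
    (hLC : Lk ≤ Ck) (hCV : Ck ≤ Vk) (hfin : Finite Vk)
    (hLs : StableBy T ⊤ Lk) (hCs : StableBy T ⊤ Ck) (hVs : StableBy T ⊤ Vk)
    (hpV : ∀ x ∈ Vk, p • x ∈ Lk)
    (hcC : Nat.card Ck = p * Nat.card Lk) (hcV : Nat.card Vk = p ^ 2 * Nat.card Lk)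
    (hfix : ∀ σ : GQ, ∀ x ∈ Ck, σ • x - x ∈ Lk)
    (hcyc : ∀ σ : GQ, ∀ x ∈ Vk, σ • x - ExtCitation.cycloExp p σ • x ∈ Ck)
    (hunr : ∀ ℓ : ℕ, ℓ.Prime → ℓ ≠ p → ∀ A : ValuationSubring Qb, A.LiesOverPrime ℓ →
      ∀ σ ∈ Ine A, ∀ x ∈ Vk, σ • x - x ∈ Lk)
    (hloc : ∀ A : ValuationSubring Qb, A.LiesOverPrime p → ∃ C' : AddSubgroup T,
      Lk ≤ C' ∧ C' ≤ Vk ∧ StableBy T (Dec A) C' ∧ C' ⊓ Ck ≤ Lk ∧ Vk ≤ C' ⊔ Ck)
    (hopen : ∃ s : Finset Qb, ∀ σ : GQ, (∀ z ∈ s, σ z = z) → ∀ x ∈ Vk, σ • x = x) :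
    ∃ D : AddSubgroup T, Lk ≤ D ∧ D ≤ Vk ∧ StableBy T ⊤ D ∧ D ⊓ Ck ≤ Lk ∧ Vk ≤ D ⊔ Ck := by
  sorry

end Fermat.Agent.S12
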