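import Fermat.Agent.S12.Abs.AtP
import Fermat.Agent.S12.Abs.S14Sub

/-!
# S12 / ABS : the chain `L = L_1 ⊂ L_2 ⊂ ...` (report 357 (5))
-/

set_option autoImplicit false
set_option linter.unusedSectionVars false
set_option linter.unusedVariables false

noncomputable section

namespace Fermat.Agent.S12

open ExtCitation

variable {T : Type} [AddCommGroup T] [DistribMulAction GQ T] {p : ℕ} [Fact p.Prime]
  {jj : AddSubgroup T → Qb} {bad : Finset ℕ} {L : AddSubgroup T}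
  {E1 : ValuationSubring Qb → AddSubgroup T}

/-- the `k`-th stage of the chain. -/
structure Stage (p : ℕ) [Fact p.Prime] (jj : AddSubgroup T → Qb) (bad : Finset ℕ)
    (L : AddSubgroup T) (E1 : ValuationSubring Qb → AddSubgroup T) (k : ℕ)
    (Lk : AddSubgroup T) : Prop where
  cyc : IsCyc T Lk (p ^ k)
  stable : StableBy T ⊤ Lk
  top : 1 ≤ k → L ≤ Lk
  tw : ∀ ℓ ∈ bad, ∀ A : ValuationSubring Qb, A.LiesOverPrime ℓ →
    ∀ U : ℕ → AddSubgroup T, Tower T p jj A U → Lk = U k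
  e1 : ∀ A : ValuationSubring Qb, A.LiesOverPrime p → Lk ≤ E1 A

theorem stage_zero : Stage p jj bad L E1 0 (⊥ : AddSubgroup T) where
  cyc := isCyc_bot
  stable := by
    intro σ _ x hx
    rw [AddSubgroup.mem_bot] at hx ⊢
    rw [hx, smul_zero]
  top := fun h => absurd h (by norm_num)
  tw := fun ℓ _ A _ U hU => hU.zero.symm
  e1 := fun A _ => bot_le

/-- LEAF ST1 (`ℓ ∈ {2, 3}`).  `φ, c := cycloExp p φ` from `exists_dec_cyclo` (`ℓ ≠ p` since `5 ≤ p`), `hU.frob k D hD (hLU ▸ hle) φ hφ c`.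
`p ∤ c - 1`: in `ZMod p`, `c - 1 = ℓ - 1 ∈ {1, 2}`, nonzero as `5 ≤ p` (`ZMod.intCast_zmod_eq_zero_iff_dvd`, then
`(ZMod.natCast_eq_zero_iff _ _)`, `Nat.le_of_dvd`); `p ∤ c + 1`: `ℓ + 1 ∈ {3, 4}`. -/
theorem eq_tower_small (hp5 : 5 ≤ p) {ℓ : ℕ} (hℓ : ℓ = 2 ∨ ℓ = 3) {A : ValuationSubring Qb}
    (hA : A.LiesOverPrime ℓ) {U : ℕ → AddSubgroup T} (hU : Tower T p jj A U) {k : ℕ}
    {Lk D : AddSubgroup T} (hLU : Lk = U k) (hD : IsCyc T D (p ^ (k + 1))) (hle : Lk ≤ D)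
    (hcy : ∀ σ : GQ, ∀ x ∈ D, σ • x - cycloExp p σ • x ∈ Lk) : D = U (k + 1) := by
  sorry

/-- LEAF ST2.  `D = U (k+1)`, `Lk = U k`: `hU.big (k+1)`, `hU.up k`. -/
theorem nearZero_of_tower {A : ValuationSubring Qb} {U : ℕ → AddSubgroup T}
    (hU : Tower T p jj A U) {k : ℕ} {Lk D : AddSubgroup T} (hLU : Lk = U k) (hDU : D = U (k + 1)) :
    NearZero A p (jj D) (jj Lk) := by
  subst hLU hDU
  exact ⟨hU.big (k + 1), (hU.up k).symm⟩

/-- LEAF ST3.  `hU.down k D _ hne : v(jj D)^p = v(jj (U k))`, and `1 < v(jj (U k))` (`hU.big k`, `A.valuation_le_one_iff`), so `1 < v(jj D)`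
(otherwise `v(jj D)^p ≤ 1`, `pow_le_one'`), i.e. `jj D ∉ A`. -/
theorem nearInf_of_ne {A : ValuationSubring Qb} {U : ℕ → AddSubgroup T}
    (hU : Tower T p jj A U) {k : ℕ} {Lk D : AddSubgroup T} (hLU : Lk = U k)
    (hN : IsNbr T p Lk D) (hne : D ≠ U (k + 1)) : NearInf A p (jj D) (jj Lk) := by
  sorry

/-- **(β)**: a cyclic `G`-stable `D ⊇ L_k` of order `p^(k+1)` with cyclotomic action on `D/L_k` is a stage. -/
theorem stage_succ (S : Setup T p jj bad L E1) {k : ℕ} {Lk D : AddSubgroup T}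
    (hS : Stage p jj bad L E1 k Lk) (hD : IsCyc T D (p ^ (k + 1))) (hle : Lk ≤ D)
    (hst : StableBy T ⊤ D) (hLD : L ≤ D)
    (hcy : ∀ σ : GQ, ∀ x ∈ D, σ • x - cycloExp p σ • x ∈ Lk) :
    Stage p jj bad L E1 (k + 1) D where
  cyc := hD
  stable := hst
  top := fun _ => hLD
  e1 := fun A hA => le_E1_of_cyclo S hA (hS.e1 A hA) hS.stable hD.le_tor hcy
  tw := by
    have small : ∀ ℓ : ℕ, (ℓ = 2 ∨ ℓ = 3) → ℓ ∈ bad → ∀ A : ValuationSubring Qb, A.LiesOverPrime ℓ →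
        ∀ U : ℕ → AddSubgroup T, Tower T p jj A U → D = U (k + 1) := by
      intro ℓ hℓ hb A hA U hU
      exact eq_tower_small S.p5 hℓ hA hU (hS.tw ℓ hb A hA U hU) hD hle hcy
    intro ℓ hb A hA U hU
    by_cases h23 : ℓ = 2 ∨ ℓ = 3
    · exact small ℓ h23 hb A hA U hU
    by_contra hne
    have hℓ := S.bad_prime ℓ hb
    have hℓ5 : 5 ≤ ℓ := by
      have h2 := hℓ.two_le
      by_contra hlt
      have h4 : ℓ = 4 := by
        push Not at h23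
        obtain ⟨h2', h3'⟩ := h23
        omega
      rw [h4] at hℓ
      exact absurd hℓ (by norm_num)
    have hℓp : ℓ ≠ p := fun h => S.p_notMem (h ▸ hb)
    obtain ⟨A2, hA2⟩ := exists_liesOver Nat.prime_two
    obtain ⟨A3, hA3⟩ := exists_liesOver Nat.prime_three
    obtain ⟨U2, hU2⟩ := S.tower 2 S.two_bad A2 hA2
    obtain ⟨U3, hU3⟩ := S.tower 3 S.three_bad A3 hA3
    have hfin : Finite D := hD.finite
    exact S.key Lk D hfin hS.stable hst (hD.isNbr hS.cyc hle)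
      ⟨A2, hA2, nearZero_of_tower hU2 (hS.tw 2 S.two_bad A2 hA2 U2 hU2)
        (small 2 (Or.inl rfl) S.two_bad A2 hA2 U2 hU2)⟩
      ⟨A3, hA3, nearZero_of_tower hU3 (hS.tw 3 S.three_bad A3 hA3 U3 hU3)
        (small 3 (Or.inr rfl) S.three_bad A3 hA3 U3 hU3)⟩
      ℓ hℓ hℓp hℓ5 A hA
      (nearInf_of_ne hU (hS.tw ℓ hb A hA U hU) (hD.isNbr hS.cyc hle) hne)

/-- LEAF ST4 (`cyclo_quot`).  `x ∈ p⁻¹Lk`, `c := cycloExp p σ`, `y := p^k • x = p^(k-1) • (p • x) ∈ Lk ⊓ T[p] = L` (`IsCyc.inf_tor_eq`; killed by `p` because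
`p • x ∈ Lk ≤ T[p^k]`), so `σ y = c y` (`S.L_cyclo`).  `z := σ x - c x ∈ p⁻¹Lk` (`p z = σ (p x) - c (p x) ∈ Lk`), `p^k z = σ y - c y = 0`:
`mem_tor_sup_of_pow_smul`. -/
theorem cyclo_quot (S : Setup T p jj bad L E1) {k : ℕ} (hk : 1 ≤ k) {Lk : AddSubgroup T}
    (hcyc : IsCyc T Lk (p ^ k)) (hLs : StableBy T ⊤ Lk) (hLL : L ≤ Lk) :
    ∀ σ : GQ, ∀ x ∈ pinv T p Lk, σ • x - cycloExp p σ • x ∈ tor T p ⊔ Lk := by
  sorry

/-- LEAF ST5 (`fixed_sub`).  `x = t + l` (`AddSubgroup.mem_sup`): `σ t - t ∈ L ≤ Lk` (`S.L_cofixed`), `σ l - l ∈ Lk`. -/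
theorem fixed_sub (S : Setup T p jj bad L E1) {Lk : AddSubgroup T} (hLs : StableBy T ⊤ Lk)
    (hLL : L ≤ Lk) : ∀ σ : GQ, ∀ x ∈ tor T p ⊔ Lk, σ • x - x ∈ Lk := by
  sorry

/-- LEAF ST6 (`unramified_outside`).  `ℓ ∉ bad`: `S.good` (`x ∈ T[p^(k+1)]` by `pinv_le_tor hS.cyc.le_tor`), `σ x - x = 0`.
`ℓ ∈ bad`: `U` from `S.tower`, `Lk = U k` (`hS.tw`), `hU.unram k hk σ hσ x`. -/
theorem unram_outside (S : Setup T p jj bad L E1) {k : ℕ} (hk : 1 ≤ k) {Lk : AddSubgroup T}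
    (hS : Stage p jj bad L E1 k Lk) :
    ∀ ℓ : ℕ, ℓ.Prime → ℓ ≠ p → ∀ A : ValuationSubring Qb, A.LiesOverPrime ℓ →
      ∀ σ ∈ Ine A, ∀ x ∈ pinv T p Lk, σ • x - x ∈ Lk := by
  sorry

/-- LEAF ST7 (stability of `T[p] ⊔ Lk` and `p⁻¹ Lk`; `n • σ x = σ (n • x)`). -/
theorem stable_aux {Lk : AddSubgroup T} (hLs : StableBy T ⊤ Lk) :
    StableBy T ⊤ (tor T p ⊔ Lk) ∧ StableBy T ⊤ (pinv T p Lk) := by
  sorry

/-- **(α)**: the next step of the chain, from `ExtVanishingCts`. -/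
theorem exists_next (S : Setup T p jj bad L E1) (h14 : ExtVanishingCts p) {k : ℕ} (hk : 1 ≤ k)
    {Lk : AddSubgroup T} (hS : Stage p jj bad L E1 k Lk) :
    ∃ D : AddSubgroup T, IsCyc T D (p ^ (k + 1)) ∧ Lk ≤ D ∧ StableBy T ⊤ D ∧
      ∀ σ : GQ, ∀ x ∈ D, σ • x - cycloExp p σ • x ∈ Lk := by
  have hLL := hS.top hk
  have hc := S.base.card
  have hcq := cyclo_quot S hk hS.cyc hS.stable hLL
  have hfx := fixed_sub S hS.stable hLL
  have hVt : pinv T p Lk ≤ tor T (p ^ (k + 1)) := pinv_le_tor hS.cyc.le_tor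
  have hfinT := finite_tor hc (k + 1)
  have hfin : Finite (pinv T p Lk) :=
    Finite.of_injective (AddSubgroup.inclusion hVt) (AddSubgroup.inclusion_injective hVt)
  have hCV : tor T p ⊔ Lk ≤ pinv T p Lk := sup_le le_pinv_of_tor (le_pinv Lk)
  have hcC := card_tor_sup hc hk hS.cyc hLL S.L_le S.L_card
  have hcV := card_pinv hc hS.cyc.le_tor
  obtain ⟨s, hs⟩ := S.base.level (k + 1)
  obtain ⟨D, hLD, hDV, hDs, hinf, hsup⟩ := s14_sub h14 Lk (tor T p ⊔ Lk) (pinv T p Lk) le_sup_right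
    hCV hfin hS.stable (stable_aux hS.stable).1 (stable_aux hS.stable).2 (fun x hx => hx) hcC hcV hfx hcq
    (unram_outside S hk hS)
    (fun A hA => local_split S hA hk hS.cyc hS.stable hLL (hS.e1 A hA) hcq hfx)
    ⟨s, fun σ hσ x hx => hs σ hσ x (hVt hx)⟩
  have hcD := card_of_compl hfin hLD le_sup_right hDV hCV hinf hsup hcC hcV
  refine ⟨D, isCyc_of_nbr hk hS.cyc ⟨hLD, hcD⟩ hDV ?_, hLD, hDs, ?_⟩
  · intro t ht h0
    exact hinf ⟨ht, AddSubgroup.mem_sup_left (mem_tor.2 h0)⟩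
  · intro σ x hx
    refine hinf ⟨?_, hcq σ x (hDV hx)⟩
    exact D.sub_mem (hDs σ (Subgroup.mem_top σ) x hx) (D.nsmul_mem hx _)

/-- LEAF ST8.  `L` has prime order `p`: any `x ∈ L`, `x ≠ 0` has order `p` (`p • x = 0` by `S.L_le`, `addOrderOf_eq_prime`), and `⟨x⟩ ≤ L` has the same
cardinality. -/
theorem isCyc_L (S : Setup T p jj bad L E1) : IsCyc T L (p ^ (0 + 1)) := by
  sorry

theorem stage_one (S : Setup T p jj bad L E1) : Stage p jj bad L E1 1 L := by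
  refine stage_succ S (k := 0) stage_zero (isCyc_L S) bot_le S.L_stable le_rfl ?_
  intro σ x hx
  rw [S.L_cyclo σ x hx, sub_self]
  exact AddSubgroup.zero_mem _

theorem exists_stage (S : Setup T p jj bad L E1) (h14 : ExtVanishingCts p) (k : ℕ) :
    ∃ Lk : AddSubgroup T, Stage p jj bad L E1 (k + 1) Lk := by
  induction k with
  | zero => exact ⟨L, stage_one S⟩
  | succ k ih =>
    obtain ⟨Lk, hS⟩ := ih
    obtain ⟨D, hD, hle, hst, hcy⟩ := exists_next S h14 (Nat.succ_le_succ (Nat.zero_le k)) hS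
    exact ⟨D, stage_succ S hS hD hle hst
      ((hS.top (Nat.succ_le_succ (Nat.zero_le k))).trans hle) hcy⟩

end Fermat.Agent.S12
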